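import Mathlib
import Fermat.Agent.LT.T7.H558.FactDownSpec
import Fermat.Agent.LT.T1.H724.HeckeCoset

/-!
# Row LT, tower T7, node C2.7.7 `FactDownC305` (cut of helper558): asset leaf FD.10 BI-INV-CONT --
# helper296, OFF-MAIN

VERBATIM vs `LT/T7/H558/FactDownSpec.lean` (helper558@b6c4c8a4b, sha256 8043f526), unconditional:

* `biInvContC296 (K) : H558.BiInvContC558 K`.

Tools: `isOpen_val_le296` (closed balls of `K_v` of radius `exp (-n)` are open),
`isOpen_inU296` (`U(n)` is open in `GL₂(K_v)`), `inU_one296`.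
-/

set_option autoImplicit false

open IsDedekindDomain NumberField Topology

noncomputable section

namespace Fermat.Agent.LT.T7.H296

open Fermat.Agent.LT Fermat.Agent.LT.H556.A0 Fermat.Agent.LT.T7 Fermat.Agent.LT.T7.H305

variable {K : Type} [Field K] [NumberField K]

/-- The closed ball of radius `exp (-n)` of `K_v` is open. -/
theorem isOpen_val_le296 (v : HeightOneSpectrum (𝓞 K)) (n : ℕ) :
    IsOpen {x : v.adicCompletion K | Valued.v x ≤ WithZero.exp (-(n : ℤ))} := by
  obtain ⟨ϖ, hϖ⟩ := Fermat.Agent.LT.T1.H724.exists_unif724 (K := K) v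
  have hc : Valued.v (ϖ ^ n) = WithZero.exp (-(n : ℤ)) := by
    rw [map_pow, hϖ, ← WithZero.exp_nsmul]
    simp
  have hpos : (0 : WithZero (Multiplicative ℤ)) < WithZero.exp (-(n : ℤ)) := WithZero.exp_pos
  have h1 : IsOpen ((v.adicCompletionIntegers K : Set (v.adicCompletion K))) :=
    Valued.isOpen_valuationSubring _
  have h2 : Continuous (fun y : v.adicCompletion K => y * (ϖ ^ n)⁻¹) :=
    continuous_id.mul continuous_const
  have h3 : {x : v.adicCompletion K | Valued.v x ≤ WithZero.exp (-(n : ℤ))}
      = (fun y : v.adicCompletion K => y * (ϖ ^ n)⁻¹) ⁻¹'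
        (v.adicCompletionIntegers K : Set (v.adicCompletion K)) := by
    ext x
    simp only [Set.mem_setOf_eq, Set.mem_preimage, SetLike.mem_coe]
    rw [HeightOneSpectrum.mem_adicCompletionIntegers, map_mul, map_inv₀, hc,
      mul_inv_le_iff₀ hpos, one_mul]
  rw [h3]
  exact h1.preimage h2

/-- `U(n)` is open in `GL₂(K_v)`. -/
theorem isOpen_inU296 (v : HeightOneSpectrum (𝓞 K)) (n : ℕ) :
    IsOpen {u : GL (Fin 2) (v.adicCompletion K) | T6.InU n u} := by
  have h : {u : GL (Fin 2) (v.adicCompletion K) | T6.InU n u}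
      = ⋂ i : Fin 2, ⋂ j : Fin 2,
        ({u : GL (Fin 2) (v.adicCompletion K) |
            Valued.v ((u : Matrix (Fin 2) (Fin 2) (v.adicCompletion K)) i j
              - (1 : Matrix (Fin 2) (Fin 2) (v.adicCompletion K)) i j)
                ≤ WithZero.exp (-(n : ℤ))} ∩
          {u : GL (Fin 2) (v.adicCompletion K) |
            Valued.v (((u⁻¹ : GL (Fin 2) (v.adicCompletion K)) :
                Matrix (Fin 2) (Fin 2) (v.adicCompletion K)) i j
              - (1 : Matrix (Fin 2) (Fin 2) (v.adicCompletion K)) i j)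
                ≤ WithZero.exp (-(n : ℤ))}) := by
    ext u
    simp only [Set.mem_setOf_eq, Set.mem_iInter, Set.mem_inter_iff]
    rfl
  rw [h]
  refine isOpen_iInter_of_finite fun i => isOpen_iInter_of_finite fun j => IsOpen.inter ?_ ?_
  · have hc : Continuous fun u : GL (Fin 2) (v.adicCompletion K) =>
        (u : Matrix (Fin 2) (Fin 2) (v.adicCompletion K)) i j
          - (1 : Matrix (Fin 2) (Fin 2) (v.adicCompletion K)) i j :=
      (Continuous.matrix_elem Units.continuous_val i j).sub continuous_const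
    exact (isOpen_val_le296 v n).preimage hc
  · have hc : Continuous fun u : GL (Fin 2) (v.adicCompletion K) =>
        ((u⁻¹ : GL (Fin 2) (v.adicCompletion K)) :
            Matrix (Fin 2) (Fin 2) (v.adicCompletion K)) i j
          - (1 : Matrix (Fin 2) (Fin 2) (v.adicCompletion K)) i j :=
      (Continuous.matrix_elem Units.continuous_coe_inv i j).sub continuous_const
    exact (isOpen_val_le296 v n).preimage hc

/-- `1 ∈ U(n)`. -/
theorem inU_one296 (v : HeightOneSpectrum (𝓞 K)) (n : ℕ) :
    T6.InU n (1 : GL (Fin 2) (v.adicCompletion K)) := by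
  intro i j
  constructor
  · rw [Units.val_one, sub_self, map_zero]
    exact zero_le'
  · rw [inv_one, Units.val_one, sub_self, map_zero]
    exact zero_le'

variable (K)

/-- **ASSET LEAF FD.10 `BiInvContC558`**, VERBATIM. -/
theorem biInvContC296 : H558.BiInvContC558 K := by
  intro v n f hf
  refine ((IsLocallyConstant.iff_eventually_eq f).2 fun g => ?_).continuous
  have hopen : IsOpen {x : GL (Fin 2) (v.adicCompletion K) | T6.InU n (g⁻¹ * x)} :=
    (isOpen_inU296 v n).preimage (continuous_const.mul continuous_id)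
  have hmem : g ∈ {x : GL (Fin 2) (v.adicCompletion K) | T6.InU n (g⁻¹ * x)} := by
    show T6.InU n (g⁻¹ * g)
    rw [inv_mul_cancel]
    exact inU_one296 v n
  filter_upwards [hopen.mem_nhds hmem] with x hx
  have h := hf 1 (g⁻¹ * x) g (inU_one296 v n) hx
  rw [one_mul, mul_inv_cancel_left] at h
  exact h

end Fermat.Agent.LT.T7.H296

end
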