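import Mathlib
import Fermat.Agent.LT.T7.H558.FactDownSpec

/-!
# Row LT, tower T7, node C2.7.7 `FactDownC305` (cut of helper558): leaf FD.3 TOR-COMM-ID --
# helper296, OFF-MAIN

VERBATIM vs `LT/T7/H558/FactDownSpec.lean` (helper558@b6c4c8a4b, sha256 8043f526), unconditional:

* `torCommIdC296 (K) : H558.TorCommIdC558 K`.

Tool (any commutative ring): `exists_poly_of_comm_unit296`, `comm_of_unit_disc296`: two matrices
which commute with a `2 × 2` matrix whose discriminant is a unit are polynomials in it and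
commute.
-/

set_option autoImplicit false

open IsDedekindDomain NumberField

noncomputable section

namespace Fermat.Agent.LT.T7.H296

open Fermat.Agent.LT Fermat.Agent.LT.H556.A0 Fermat.Agent.LT.T7 Fermat.Agent.LT.T7.H305

section Alg

variable {R : Type} [CommRing R]

/-- A matrix which commutes with a `2 × 2` matrix `γ` whose discriminant is a unit is a
polynomial in `γ`. -/
theorem exists_poly_of_comm_unit296 (γ X : Matrix (Fin 2) (Fin 2) R)
    (hd : IsUnit (γ.trace ^ 2 - 4 * γ.det)) (hX : X * γ = γ * X) :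
    ∃ a l : R, X = Matrix.scalar (Fin 2) a + l • γ := by
  have h00 := congrFun (congrFun hX 0) 0
  have h01 := congrFun (congrFun hX 0) 1
  have h10 := congrFun (congrFun hX 1) 0
  simp only [Matrix.mul_apply, Fin.sum_univ_two] at h00 h01 h10
  rw [Matrix.trace_fin_two, Matrix.det_fin_two] at hd
  obtain ⟨u, hu⟩ := hd
  set Q : R := (γ 0 0 + γ 1 1) ^ 2 - 4 * (γ 0 0 * γ 1 1 - γ 0 1 * γ 1 0) with hQ
  set B : R := (γ 0 0 - γ 1 1) * (X 0 0 - X 1 1) + 2 * γ 0 1 * X 1 0 + 2 * γ 1 0 * X 0 1 with hB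
  set qi : R := ((u⁻¹ : Rˣ) : R) with hqi
  have hinv : qi * Q = 1 := by
    rw [hqi, ← hu]
    exact Units.inv_mul u
  have e1 : Q * X 0 1 = B * γ 0 1 := by
    rw [hQ, hB]; linear_combination (-(γ 0 0 - γ 1 1)) * h01 + (2 * γ 0 1) * h00
  have e2 : Q * X 1 0 = B * γ 1 0 := by
    rw [hQ, hB]; linear_combination (γ 0 0 - γ 1 1) * h10 - (2 * γ 1 0) * h00
  have e3 : Q * (X 0 0 - X 1 1) = B * (γ 0 0 - γ 1 1) := by
    rw [hQ, hB]; linear_combination (2 * γ 1 0) * h01 - (2 * γ 0 1) * h10
  refine ⟨X 0 0 - qi * B * γ 0 0, qi * B, ?_⟩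
  have f1 : X 0 1 = qi * B * γ 0 1 := by
    rw [mul_assoc, ← e1, ← mul_assoc, hinv, one_mul]
  have f2 : X 1 0 = qi * B * γ 1 0 := by
    rw [mul_assoc, ← e2, ← mul_assoc, hinv, one_mul]
  have f3 : X 0 0 - X 1 1 = qi * B * (γ 0 0 - γ 1 1) := by
    rw [mul_assoc, ← e3, ← mul_assoc, hinv, one_mul]
  ext i j
  fin_cases i <;> fin_cases j
  · simp [Matrix.add_apply, Matrix.smul_apply]
  · simpa [Matrix.add_apply, Matrix.smul_apply] using f1
  · simpa [Matrix.add_apply, Matrix.smul_apply] using f2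
  · simp only [Matrix.add_apply, Matrix.smul_apply, Matrix.scalar_apply, Matrix.diagonal_apply_eq,
      smul_eq_mul, Fin.mk_one, Fin.isValue]
    linear_combination -f3

/-- Two matrices which commute with a `2 × 2` matrix whose discriminant is a unit commute. -/
theorem comm_of_unit_disc296 (γ X Y : Matrix (Fin 2) (Fin 2) R)
    (hd : IsUnit (γ.trace ^ 2 - 4 * γ.det)) (hX : X * γ = γ * X) (hY : Y * γ = γ * Y) :
    X * Y = Y * X := by
  obtain ⟨a, l, rfl⟩ := exists_poly_of_comm_unit296 γ X hd hX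
  obtain ⟨b, m, rfl⟩ := exists_poly_of_comm_unit296 γ Y hd hY
  have h1 : Commute (Matrix.scalar (Fin 2) a) (Matrix.scalar (Fin 2) b + m • γ) :=
    Matrix.scalar_commute a (fun r' => mul_comm _ _) _
  have h2 : Commute (l • γ) (Matrix.scalar (Fin 2) b + m • γ) := by
    refine Commute.add_right ?_ ?_
    · exact (Matrix.scalar_commute b (fun r' => mul_comm _ _) _).symm
    · exact ((Commute.refl γ).smul_left l).smul_right m
  exact (h1.add_left h2).eq

end Alg

variable (K : Type) [Field K] [NumberField K]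

/-- The trivial automorphism acts trivially on `GL₂(𝔸_K)`. -/
theorem onG_id296 (x : G K) : (T5.AdelicAut.id K).onG x = x := by
  apply Units.ext
  ext i j
  rfl

/-- **LEAF FD.3 `TorCommIdC558`**, VERBATIM. -/
theorem torCommIdC296 : H558.TorCommIdC558 K := by
  intro γ hγ x hx y hy
  have hreg : T6.IsReg γ := hγ.1
  set M : Matrix (Fin 2) (Fin 2) (Adl K) := ((T5.ratG γ : G K) : Matrix (Fin 2) (Fin 2) (Adl K))
    with hM
  have hMmap : M = (γ : Matrix (Fin 2) (Fin 2) K).map (algebraMap K (Adl K)) := rfl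
  have hd : IsUnit (M.trace ^ 2 - 4 * M.det) := by
    have h1 : M.trace ^ 2 - 4 * M.det = algebraMap K (Adl K) (T6.disc γ) := by
      rw [hMmap]
      unfold T6.disc
      have ht : ((γ : Matrix (Fin 2) (Fin 2) K).map (algebraMap K (Adl K))).trace
          = algebraMap K (Adl K) (γ : Matrix (Fin 2) (Fin 2) K).trace := by
        rw [Matrix.trace_fin_two, Matrix.trace_fin_two, map_add]
        rfl
      have hdet : ((γ : Matrix (Fin 2) (Fin 2) K).map (algebraMap K (Adl K))).det
          = algebraMap K (Adl K) (γ : Matrix (Fin 2) (Fin 2) K).det :=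
        (RingHom.map_det (algebraMap K (Adl K)) _).symm
      rw [ht, hdet]
      simp only [map_sub, map_mul, map_pow, map_ofNat]
    rw [h1]
    exact hreg.map _
  have key : ∀ z : G K, z ∈ tA305 (T5.AdelicAut.id K) γ →
      (z : Matrix (Fin 2) (Fin 2) (Adl K)) * M = M * z := by
    intro z hz
    have h1 : z⁻¹ * T5.ratG γ * (T5.AdelicAut.id K).onG z = T5.ratG γ := hz
    rw [onG_id296] at h1
    have h2 : T5.ratG γ * z = z * T5.ratG γ := by
      calc T5.ratG γ * z = z * (z⁻¹ * T5.ratG γ * z) := by group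
        _ = z * T5.ratG γ := by rw [h1]
    have h3 := congrArg (fun u : G K => (u : Matrix (Fin 2) (Fin 2) (Adl K))) h2
    simpa using h3.symm
  apply Units.ext
  simpa using comm_of_unit_disc296 M x y hd (key x hx) (key y hy)

end Fermat.Agent.LT.T7.H296

end
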