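import Mathlib
import Fermat.Agent.LT.T5.Closed
import Fermat.Agent.LT.T7.H534.SpecDownSpec

/-!
# Row LT, tower T7, leaf T7.L2.3.1 `SD534.StfIdC` (registry row 2126) -- helper296, OFF-MAIN

PLUG of the closed tower T5 (`T5/Closed.lean` v9 of helper32, `closed_stf`) into the cut
`LT/T7/H534/SpecDownSpec.lean` (helper534@756e78a11, sha256 3f1c4f486c3ea8a9):
the trace identity `T5.STFsigma` for `σ = id`, trivial `K_∞`-type, every level `𝔫 ≠ 0`,
for EVERY number field `K` (no hypothesis on `K`).
-/

set_option autoImplicit false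

open IsDedekindDomain NumberField

noncomputable section

namespace Fermat.Agent.LT.T7.H296

open Fermat.Agent.LT

/-- **T7.L2.3.1 `StfIdC`**, VERBATIM, unconditional, for every number field `K`. -/
theorem stfIdC296 (K : Type) [Field K] [NumberField K] : T7.SD534.StfIdC K :=
  fun 𝔫 h𝔫 => T5.closed_stf (T5.AdelicAut.id K) 𝔫 T5.trivType h𝔫

end Fermat.Agent.LT.T7.H296

end
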