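import Mathlib
import Fermat.Agent.LT.T7.H616.ClassModelSpec
import Fermat.Agent.LT.T5.H415.AutT5

/-!
# Row LT, tower T7, node T7.L2.2.N.1 `ClassModelC` (cut of helper616): leaves CM.06, CM.07,
# CM.08 -- helper296, OFF-MAIN

VERBATIM vs `LT/T7/H616/ClassModelSpec.lean` (helper616@6a81e5a09, sha256 8568bae7),
unconditional:

* `locCommC296 : CM616.LocCommC616 K K'` (CM.06): elements supported at two different places of
  the orbit commute (the places `o i`, `i < ℓ`, are pairwise different: `orbit_inj296`);
* `locMoveC296 : CM616.LocMoveC616 K K'` (CM.07): `σ⁻¹` moves the elements supported at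
  `o (j+1)` to `o j` and `o 0` to `o (ℓ-1)`;
* `powC296 : CM616.PowC616 K K'` (CM.08): `σ⁻ℓ = 1` on `GL₂(𝔸_{K'})`.

Assets: `LT/T5/H415/AutT5.lean` (helper415: uniqueness of the adelic extension, locality),
byte-identical copy.
-/

set_option autoImplicit false

open AutomorphicForm IsDedekindDomain NumberField

noncomputable section

namespace Fermat.Agent.LT.T7.H296

open Fermat.Agent.LT.H556 Fermat.Agent.LT.H556.A0 Fermat.Agent.LT.T7 Fermat.Agent.LT.T7.CM616
open Fermat.Agent.LT.H415

/-! ## 1. Components -/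

section Comp

variable {K : Type} [Field K] [NumberField K]

/-- The raw component at the infinite place `w`. -/
def infRaw296 (w : InfinitePlace K) : Adl K →+* w.Completion :=
  (Pi.evalRingHom (fun v : InfinitePlace K => v.Completion) w).comp
    (RingHom.fst (InfiniteAdeleRing K) (FiniteAdeleRing (𝓞 K) K))

/-- The matrix of raw components at `w`. -/
def infM296 (w : InfinitePlace K) (g : G K) : Matrix (Fin 2) (Fin 2) w.Completion :=
  (g : Matrix (Fin 2) (Fin 2) (Adl K)).map (infRaw296 w)

theorem trivAtInf_iff296 (w : InfinitePlace K) (g : G K) : TrivAtInf w g ↔ infM296 w g = 1 := by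
  constructor
  · intro h
    exact Matrix.ext fun i j => h i j
  · intro h i j
    exact congrFun (congrFun h i) j

theorem infM_mul296 (w : InfinitePlace K) (g h : G K) :
    infM296 w (g * h) = infM296 w g * infM296 w h := by
  unfold infM296
  rw [Units.val_mul, Matrix.map_mul]

theorem infM_one296 (w : InfinitePlace K) : infM296 w (1 : G K) = 1 := by
  unfold infM296
  rw [Units.val_one, Matrix.map_one _ (map_zero _) (map_one _)]

theorem finComp_mul296 (v : HeightOneSpectrum (𝓞 K)) (g h : G K) :
    finComp v (g * h) = finComp v g * finComp v h := by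
  rw [T5.finComp_eq_map, T5.finComp_eq_map, T5.finComp_eq_map, Units.val_mul, Matrix.map_mul]

theorem finComp_one296 (v : HeightOneSpectrum (𝓞 K)) : finComp v (1 : G K) = 1 := by
  rw [T5.finComp_eq_map, Units.val_one, Matrix.map_one _ (map_zero _) (map_one _)]

theorem trivAtInf_one296 (w : InfinitePlace K) : TrivAtInf w (1 : G K) :=
  (trivAtInf_iff296 w 1).2 (infM_one296 w)

theorem trivAtFin_one296 (v : HeightOneSpectrum (𝓞 K)) : TrivAtFin v (1 : G K) :=
  finComp_one296 v

/-- An element of `GL₂(𝔸_K)` is determined by its components. -/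
theorem G_ext296 {g g' : G K} (hinf : ∀ w : InfinitePlace K, infM296 w g = infM296 w g')
    (hfin : ∀ v : HeightOneSpectrum (𝓞 K), finComp v g = finComp v g') : g = g' := by
  apply Units.ext
  ext i j
  apply Prod.ext
  · funext w
    exact congrFun (congrFun (hinf w) i) j
  · apply DFunLike.ext
    intro v
    exact congrFun (congrFun (hfin v) i) j

/-- Elements supported at two different finite places commute. -/
theorem comm_of_local296 {v v' : HeightOneSpectrum (𝓞 K)} (hne : v ≠ v') {h h' : G K}
    (hh : IsLocalAtFin v h) (hh' : IsLocalAtFin v' h') : h * h' = h' * h := by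
  apply G_ext296
  · intro w
    rw [infM_mul296, infM_mul296, (trivAtInf_iff296 w h).1 (hh.1 w),
      (trivAtInf_iff296 w h').1 (hh'.1 w)]
  · intro u
    rw [finComp_mul296, finComp_mul296]
    by_cases hu : u = v
    · have hu' : u ≠ v' := fun e => hne (hu.symm.trans e)
      have h1 : finComp u h' = 1 := hh'.2 u hu'
      rw [h1, mul_one, one_mul]
    · have h1 : finComp u h = 1 := hh.2 u hu
      rw [h1, mul_one, one_mul]

end Comp

/-! ## 2. The inverse automorphism -/

section Inv

variable {K : Type} [Field K] [NumberField K]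

/-- The inverse of an adelic automorphism. -/
def invAut296 (s : T5.AdelicAut K) : T5.AdelicAut K where
  σ := s.σ.symm
  σA := s.σA.symm
  continuous_σA := s.continuous_symm
  continuous_symm := s.continuous_σA
  compat := by
    intro x
    apply s.σA.injective
    rw [RingEquiv.apply_symm_apply, s.compat, RingEquiv.apply_symm_apply]

theorem invAut_onG296 (s : T5.AdelicAut K) : (invAut296 s).onG = s.onGinv := rfl

/-- `σ⁻¹` moves the elements supported at `σ v` to elements supported at `v`. -/
theorem local_onGinv296 (s : T5.AdelicAut K) {v v' : HeightOneSpectrum (𝓞 K)}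
    (hv : T5.PlaceRel s v v') {h : G K} (hh : IsLocalAtFin v' h) :
    IsLocalAtFin v (s.onGinv h) := by
  rw [← invAut_onG296]
  have hrel : T5.PlaceRel (invAut296 s) v' v := finRel_symm415 s.σ v v' hv
  refine ⟨fun w' => ?_, fun u hu => ?_⟩
  · -- the infinite places
    obtain ⟨w, rfl⟩ := infImage_surjective415 (invAut296 s).σ w'
    have h1 : infComp w h = infComp w 1 := by
      rw [T5.H415.infComp_eq_iff415]
      intro i j
      have := hh.1 w i j
      rw [this]
      exact ((trivAtInf_one296 w) i j).symm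
    have h2 := T5.H415.infComp_onG_congr415 (invAut296 s) w h 1 h1
    rw [map_one, T5.H415.infComp_eq_iff415] at h2
    intro i j
    rw [h2 i j]
    exact (trivAtInf_one296 _) i j
  · -- the finite places
    obtain ⟨u', hu'⟩ := finRel_exists_preimage415 (invAut296 s).σ u
    have hne : u' ≠ v' := by
      rintro rfl
      exact hu (finRel_unique415 (invAut296 s).σ u' u v hu' hrel)
    have h1 : finComp u' h = finComp u' 1 := by
      rw [finComp_one296]
      exact hh.2 u' hne
    have h2 := T5.H415.finComp_onG_congr415 (invAut296 s) u' u hu' h 1 h1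
    rw [map_one, finComp_one296] at h2
    exact h2

end Inv

/-! ## 3. The leaves -/

section Leaves

variable (K K' : Type) [Field K] [NumberField K] [Field K'] [NumberField K'] [Algebra K K']

variable {K K'} in
theorem isBad_one296 (Dt : L2Data K K') : Dt.IsBad 1 :=
  ⟨fun w => trivAtInf_one296 w, fun v _ => trivAtFin_one296 v⟩

variable {K K'} in
/-- `σ` is cyclic of degree `ℓ` (from the data of the comparison for the bad element `1`). -/
theorem cyc_of_data296 {ℓ : ℕ} {Φ : HeckeEigensystem K' ℂ} {Dt : L2Data K K'}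
    (hD : IsL2Data ℓ Φ Dt) : T5.IsCyclicOfDegree Dt.s ℓ Dt.k := by
  have h := (hD.comp 1 (isBad_one296 Dt)).cyc
  have hl : Dt.l = ℓ := hD.deg
  rw [← hl]
  exact h

variable {K K'} in
/-- The places `o i`, `i < ℓ`, of the orbit are pairwise different. -/
theorem orbit_inj296 {ℓ : ℕ} {Φ : HeckeEigensystem K' ℂ} {Dt : L2Data K K'}
    (hD : IsL2Data ℓ Φ Dt) : ∀ i j : ℕ, i < j → j < ℓ → Dt.o i ≠ Dt.o j := by
  intro i
  induction i with
  | zero =>
    intro j hij hj h
    exact hD.orbit_ne j hij hj h.symm
  | succ i ih =>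
    intro j hij hj h
    obtain ⟨j', rfl⟩ : ∃ j', j = j' + 1 := ⟨j - 1, by omega⟩
    have h1 : T5.PlaceRel Dt.s (Dt.o i) (Dt.o (i + 1)) := hD.orbit_rel i
    have h2 : T5.PlaceRel Dt.s (Dt.o j') (Dt.o (i + 1)) := by
      rw [h]
      exact hD.orbit_rel j'
    exact ih j' (by omega) (by omega) (finRel_inj415 Dt.s.σ (Dt.o i) (Dt.o j') (Dt.o (i + 1)) h1 h2)

/-- **LEAF CM.06 `LocCommC616`**, VERBATIM. -/
theorem locCommC296 : LocCommC616 K K' := by
  intro ℓ Φ Dt ctx i hi j hj hij h h' hh hh'
  have hne : Dt.o i ≠ Dt.o j := by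
    rcases lt_or_gt_of_ne hij with h1 | h1
    · exact orbit_inj296 ctx.data i j h1 hj
    · exact (orbit_inj296 ctx.data j i h1 hi).symm
  exact comm_of_local296 hne hh hh'

/-- **LEAF CM.07 `LocMoveC616`**, VERBATIM. -/
theorem locMoveC296 : LocMoveC616 K K' := by
  intro ℓ Φ Dt ctx
  refine ⟨fun j _ h hh => local_onGinv296 Dt.s (ctx.data.orbit_rel j) hh, fun h hh => ?_⟩
  have hc := cyc_of_data296 ctx.data
  have hper : Dt.o ℓ = Dt.o 0 :=
    T5.H415.orbit_period415 Dt.s ℓ Dt.k hc Dt.o ctx.data.orbit_rel
  have hrel : T5.PlaceRel Dt.s (Dt.o (ℓ - 1)) (Dt.o 0) := by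
    have := ctx.data.orbit_rel (ℓ - 1)
    rw [Nat.sub_add_cancel hc.pos, hper] at this
    exact this
  exact local_onGinv296 Dt.s hrel hh

/-- **LEAF CM.08 `PowC616`**, VERBATIM. -/
theorem powC296 : PowC616 K K' := by
  intro ℓ Φ Dt ctx x
  have hc := cyc_of_data296 ctx.data
  have h1 : (⇑Dt.s.onG)^[ℓ] x = x := T5.H415.onG_iterate415 Dt.s ℓ Dt.k hc x
  have hli : Function.LeftInverse (⇑Dt.s.onGinv) (⇑Dt.s.onG) := by
    intro y
    apply Units.ext
    ext i j
    show Dt.s.σA.symm (Dt.s.σA ((y : Matrix (Fin 2) (Fin 2) (Adl K')) i j)) = _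
    rw [RingEquiv.symm_apply_apply]
  have h2 := (hli.iterate ℓ) x
  rw [h1] at h2
  exact h2

end Leaves

end Fermat.Agent.LT.T7.H296

end
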