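import Mathlib
import Fermat.Agent.LT.T7.H675.ClassModelU
import Fermat.Agent.LT.T7.H296.ClassModelLeaves

/-!
# Row LT, tower T7, `ClassModelC` IN CORE FORM (cut of helper675 on `H29.UpData`): leaves CM.06,
# CM.07, CM.08 -- helper296, OFF-MAIN

VERBATIM vs `LT/T7/H675/ClassModelU.lean` (helper675@17fa7d760, sha256 9a359011), unconditional:

* `locCommUC296 : CMU675.LocCommUC675 K'` (CM.06, core form),
* `locMoveUC296 : CMU675.LocMoveUC675 K'` (CM.07, core form),
* `powUC296 : CMU675.PowUC675 K'` (CM.08, core form).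

The general lemmas are those of `ClassModelLeaves.lean` (`comm_of_local296`,
`local_onGinv296`); assets of helper415 (`LT/T5/H415/AutT5.lean`).
-/

set_option autoImplicit false

open AutomorphicForm IsDedekindDomain NumberField

noncomputable section

namespace Fermat.Agent.LT.T7.H296

open Fermat.Agent.LT.H556 Fermat.Agent.LT.H556.A0 Fermat.Agent.LT.T7 Fermat.Agent.LT.T7.CMU675
open Fermat.Agent.LT.H415

variable {K' : Type} [Field K'] [NumberField K']

/-- `σ` is cyclic of degree `ℓ`. -/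
theorem cyc_of_up296 {ℓ : ℕ} {Φ : HeckeEigensystem K' ℂ} {U : H29.UpData K'}
    (hD : H29.IsUpData ℓ Φ U) : T5.IsCyclicOfDegree U.s ℓ U.k := by
  have h := hD.cyc
  have hl : U.l = ℓ := hD.deg
  rw [← hl]
  exact h

/-- The places `o i`, `i < ℓ`, of the orbit are pairwise different. -/
theorem orbit_injU296 {ℓ : ℕ} {Φ : HeckeEigensystem K' ℂ} {U : H29.UpData K'}
    (hD : H29.IsUpData ℓ Φ U) : ∀ i j : ℕ, i < j → j < ℓ → U.o i ≠ U.o j := by
  intro i
  induction i with
  | zero =>
    intro j hij hj h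
    exact hD.orbit_ne j hij hj h.symm
  | succ i ih =>
    intro j hij hj h
    obtain ⟨j', rfl⟩ : ∃ j', j = j' + 1 := ⟨j - 1, by omega⟩
    have h1 : T5.PlaceRel U.s (U.o i) (U.o (i + 1)) := hD.orbit_rel i
    have h2 : T5.PlaceRel U.s (U.o j') (U.o (i + 1)) := by
      rw [h]
      exact hD.orbit_rel j'
    exact ih j' (by omega) (by omega) (finRel_inj415 U.s.σ (U.o i) (U.o j') (U.o (i + 1)) h1 h2)

variable (K')

/-- **LEAF CM.06, core form `LocCommUC675`**, VERBATIM. -/
theorem locCommUC296 : LocCommUC675 K' := by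
  intro ℓ Φ U ctx i hi j hj hij h h' hh hh'
  have hne : U.o i ≠ U.o j := by
    rcases lt_or_gt_of_ne hij with h1 | h1
    · exact orbit_injU296 ctx.data i j h1 hj
    · exact (orbit_injU296 ctx.data j i h1 hi).symm
  exact comm_of_local296 hne hh hh'

/-- **LEAF CM.07, core form `LocMoveUC675`**, VERBATIM. -/
theorem locMoveUC296 : LocMoveUC675 K' := by
  intro ℓ Φ U ctx
  refine ⟨fun j _ h hh => local_onGinv296 U.s (ctx.data.orbit_rel j) hh, fun h hh => ?_⟩
  have hc := cyc_of_up296 ctx.data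
  have hper : U.o ℓ = U.o 0 :=
    T5.H415.orbit_period415 U.s ℓ U.k hc U.o ctx.data.orbit_rel
  have hrel : T5.PlaceRel U.s (U.o (ℓ - 1)) (U.o 0) := by
    have := ctx.data.orbit_rel (ℓ - 1)
    rw [Nat.sub_add_cancel hc.pos, hper] at this
    exact this
  exact local_onGinv296 U.s hrel hh

/-- **LEAF CM.08, core form `PowUC675`**, VERBATIM. -/
theorem powUC296 : PowUC675 K' := by
  intro ℓ Φ U ctx x
  have hc := cyc_of_up296 ctx.data
  have h1 : (⇑U.s.onG)^[ℓ] x = x := T5.H415.onG_iterate415 U.s ℓ U.k hc x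
  have hli : Function.LeftInverse (⇑U.s.onGinv) (⇑U.s.onG) := by
    intro y
    apply Units.ext
    ext i j
    show U.s.σA.symm (U.s.σA ((y : Matrix (Fin 2) (Fin 2) (Adl K')) i j)) = _
    rw [RingEquiv.symm_apply_apply]
  have h2 := (hli.iterate ℓ) x
  rw [h1] at h2
  exact h2

end Fermat.Agent.LT.T7.H296

end
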