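import Mathlib
import Fermat.Agent.LT.T7.H675.ClassModelU
import Fermat.Agent.LT.T7.H296.ClassModelLeaves
import Fermat.Agent.LT.T2.H793.RayGen
import Fermat.Agent.LT.T2.H724.IdealCl

/-!
# Row LT, tower T7, node `ClassModelC`: leaf CM.02 NON-TRIVIAL, core form and cyclic form --
# helper296, OFF-MAIN

VERBATIM, unconditional:

* `nontrivUC296 (K') : CMU675.NontrivUC675 K'` (core form of helper675, `ClassModelU.lean`
  sha256 9a359011),
* `nontrivC296 (K K') : CM616.NontrivC616 K K'` (cut of helper616, `ClassModelSpec.lean`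
  sha256 8568bae7), by the bridge `CMU675.nontrivC616_of_U675`.

The form `φ` of `A0.IsCuspAdelicSph0 K' Φ` is an invariant eigenfunction with the data
`eigOf Φ` at every level `𝔑₀ ≤ Φ.level` whose orbit places do not divide `Φ.level`:

* `InLevelGroup` is monotone in the level (`inLevelGroup_mono296`),
* the invariance under the ray generator follows from the invariance under the positive scalars
  at the infinite places (`T2.H793.rayOfArch793`, helper793),
* an element which is trivial outside the orbit and lies in the Iwahori subgroups along the orbit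
  lies in `U(Φ.level)` (`𝔫 𝒪_v = 𝒪_v` at `v ∤ 𝔫`: `T2.H724.mem_idealClosure_of_not_dvd724`,
  helper724),
* all the infinite places are complex, so the mean value property is `A0.MeanValueComplex`.
-/

set_option autoImplicit false

open AutomorphicForm IsDedekindDomain NumberField

noncomputable section

namespace Fermat.Agent.LT.T7.H296

open Fermat.Agent.LT.H556 Fermat.Agent.LT.H556.A0 Fermat.Agent.LT.T7 Fermat.Agent.LT.T7.CMU675

section General

variable {K : Type} [Field K] [NumberField K]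

/-- The closure of an ideal in the completion is monotone in the ideal. -/
theorem idealClosure_mono296 {𝔫 𝔪 : Ideal (𝓞 K)} (h : 𝔫 ≤ 𝔪) (v : HeightOneSpectrum (𝓞 K)) :
    idealClosure 𝔫 v ⊆ idealClosure 𝔪 v :=
  closure_mono (Set.image_mono h)

/-- `U(𝔫) ⊆ U(𝔪)` if `𝔫 ≤ 𝔪`. -/
theorem inLevelGroup_mono296 {𝔫 𝔪 : Ideal (𝓞 K)} (h : 𝔫 ≤ 𝔪) {u : G K}
    (hu : InLevelGroup 𝔫 u) : InLevelGroup 𝔪 u :=
  ⟨hu.1, fun v i j =>
    ⟨idealClosure_mono296 h v (hu.2 v i j).1, idealClosure_mono296 h v (hu.2 v i j).2⟩⟩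

/-- `finComp v h⁻¹ = 1` if `finComp v h = 1`. -/
theorem finComp_inv_of_triv296 (v : HeightOneSpectrum (𝓞 K)) {h : G K} (hh : TrivAtFin v h) :
    finComp v h⁻¹ = 1 := by
  have h1 : finComp v (h * h⁻¹) = finComp v h * finComp v h⁻¹ := finComp_mul296 v h h⁻¹
  rw [mul_inv_cancel, finComp_one296] at h1
  have h2 : finComp v h = 1 := hh
  rw [h2, one_mul] at h1
  exact h1.symm

/-- An element which is trivial at infinity, trivial at the finite places outside a family of
places prime to `𝔫` and integral with integral inverse along the family lies in `U(𝔫)`. -/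
theorem inLevelGroup_of_iw296 (𝔫 : Ideal (𝓞 K)) (l : ℕ) (o : ℕ → HeightOneSpectrum (𝓞 K))
    (hgood : ∀ j < l, ¬ (o j).asIdeal ∣ 𝔫) {h : G K}
    (hinf : ∀ w : InfinitePlace K, TrivAtInf w h)
    (hout : ∀ v : HeightOneSpectrum (𝓞 K), (∀ j < l, v ≠ o j) → TrivAtFin v h)
    (hiw : ∀ j < l, T5.InIwahori (o j) h) : InLevelGroup 𝔫 h := by
  classical
  refine ⟨hinf, fun v a b => ?_⟩
  by_cases hv : ∀ j < l, v ≠ o j
  · have h1 : finComp v h = 1 := hout v hv
    have h2 : finComp v h⁻¹ = 1 := finComp_inv_of_triv296 v (hout v hv)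
    rw [h1, h2, sub_self]
    exact ⟨Fermat.Agent.LT.T2.H724.zero_mem_idealClosure724 v 𝔫,
      Fermat.Agent.LT.T2.H724.zero_mem_idealClosure724 v 𝔫⟩
  · push_neg at hv
    obtain ⟨j, hj, rfl⟩ := hv
    have hI := hiw j hj
    have hone : Valued.v ((1 : Matrix (Fin 2) (Fin 2) ((o j).adicCompletion K)) a b) ≤ 1 := by
      rw [Matrix.one_apply]
      split_ifs
      · rw [map_one]
      · rw [map_zero]
        exact zero_le'
    have key : ∀ g : G K, IsIntegralAt (o j) g →
        (finComp (o j) g - 1) a b ∈ idealClosure 𝔫 (o j) := by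
      intro g hg
      refine Fermat.Agent.LT.T2.H724.mem_idealClosure_of_not_dvd724 (o j) 𝔫 (hgood j hj) ?_
      rw [Matrix.sub_apply]
      have h1 : Valued.v (finComp (o j) g a b) ≤ 1 := hg a b
      exact (Valuation.map_sub _ _ _).trans (max_le h1 hone)
    exact ⟨key h hI.1, key h⁻¹ hI.2.1⟩

end General

variable (K' : Type) [Field K'] [NumberField K']

/-- **LEAF CM.02, core form `NontrivUC675`**, VERBATIM. -/
theorem nontrivUC296 : NontrivUC675 K' := by
  intro ℓ Φ U ctx
  obtain ⟨φ, hφ⟩ := ctx.cusp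
  have hD := ctx.data
  have hle : U.𝔑₀ ≤ Φ.level := hD.level_le
  have hr : T5.IsRayGen U.R'.r := hD.frame'.ray
  refine ⟨φ, ⟨⟨⟨hφ.cont, hφ.bdd, ⟨hφ.left_inv, ?_, ?_, ?_⟩, hφ.cuspidal⟩, hφ.arch_scalar, ?_⟩,
    ?_, ?_⟩, hφ.ne_zero⟩
  · intro u hu g
    exact hφ.level_inv u (inLevelGroup_mono296 hle hu) g
  · intro w k hk g
    rw [hφ.arch_compact w k hk g]
    simp [T5.trivType]
  · intro g
    exact Fermat.Agent.LT.T2.H793.rayOfArch793 K' φ hφ.arch_scalar U.R'.r hr g
  · intro h hinf hout hiw x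
    exact hφ.level_inv h
      (inLevelGroup_of_iw296 Φ.level ℓ U.o (fun j _ => hD.orbit_good j) hinf hout hiw) x
  · intro v hv
    refine hφ.hecke v (fun hdvd => hv ?_)
    exact hdvd.trans (Ideal.dvd_iff_le.2 hle)
  · intro w
    exact hφ.mean_complex w (ctx.cplx w)

variable (K : Type) [Field K] [NumberField K] [Algebra K K']

/-- **LEAF CM.02 `NontrivC616`**, VERBATIM (cut of helper616), from the core form. -/
theorem nontrivC296 : CM616.NontrivC616 K K' :=
  nontrivC616_of_U675 (nontrivUC296 K')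

end Fermat.Agent.LT.T7.H296

end
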